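import Mathlib
import Fermat.Agent.MU.S48.W.H.Defs
import Fermat.Agent.MU.Lib.HeckeInputs.Modular

section MergeWrap_S48_W_H_Inputs -- from S48/W/H/Inputs.lean

set_option autoImplicit false
set_option linter.style.haveILetI false

noncomputable section

namespace Fermat.Agent.S48W

open ModularCurve AlgebraicCurve IntermediateField Fermat.Agent.S24Diff
  Fermat.Agent.HeckeInputs

local notation "Kb" => AlgebraicClosure ℚ

/-- generic form: the inputs of the norm correspondence `(β, α)` for fields of `q`-series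
`F₀ ≤ F₁`, `F₀(q^p) ⊆ F₁`, whose base changes to `L` are function fields in one variable. -/
theorem qSeriesInputs_of_isFunctionFieldOver (L : Type*) [Field L] [Algebra ℚ L] [IsAlgClosed L]
    [CharZero L] {F₀ F₁ : IntermediateField ℚ (LaurentSeries ℚ)} (h01 : F₀ ≤ F₁) (p : ℕ)
    [NeZero p] (hF : ∀ y ∈ F₀, qExpand ℚ p y ∈ F₁)
    {x : laurentBaseChange L F₀} (h : IsFunctionFieldOver L (laurentBaseChange L F₀) x)
    {x' : laurentBaseChange L F₁} (h' : IsFunctionFieldOver L (laurentBaseChange L F₁) x') :
    QSeriesInputs L h01 p hF := by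
  have hfinα : FiniteAlong L (qSeriesAlpha L h01) := hi_finiteAlong _ h.transcendental h'
  have hfinβ : FiniteAlong L (qSeriesBeta L p hF) := hi_finiteAlong _ h.transcendental h'
  have hα : (qSeriesAlpha L h01).toRingHom.IsIntegral := hi_isIntegral_of_finiteAlong _ hfinα
  have hβ : (qSeriesBeta L p hF).toRingHom.IsIntegral := hi_isIntegral_of_finiteAlong _ hfinβ
  haveI hP : HasPrincipalDivisors L (laurentBaseChange L F₁) := hasPrincipalDivisors h'
  exact ⟨hα, hβ, hP, hfinα, hi_fundamentalIdentityAlong _ hβ h h',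
    hi_normFormulaAlong _ hfinα h h'⟩

/-- **(H-INP)** the inputs of `T_p` at level `Γ₁(M)`. -/
theorem heckeInputsOne_of (M p : ℕ) [NeZero M] [NeZero p] :
    FunctionFieldOne M → FunctionFieldOneP M p → HeckeInputsOne M p := fun h h' =>
  qSeriesInputs_of_isFunctionFieldOver Kb (FOne_le_FOneP M p) p
    (fun _ hy => qExpand_mem_FOneP M p hy) h h'

end Fermat.Agent.S48W
end
end MergeWrap_S48_W_H_Inputs
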