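import Mathlib
import Fermat.Prelude.Def_ModularCurve_LaurentCoeff
import Fermat.Agent.S24.FFDefs
import Fermat.Agent.MU.S48.W.H.DefsBar
import Fermat.Agent.MU.S24.GlobalDatum

section MergeWrap_S48_W_H_FFGen -- from S48/W/H/FFGen.lean

set_option autoImplicit false

noncomputable section

namespace Fermat.Agent.S48W

open ModularCurve IntermediateField
open Fermat.Agent.S24Diff

section Tower

variable {K E F : Type*} [Field K] [Field E] [Field F] [Algebra K E] [Algebra K F]
  [Algebra E F] [IsScalarTower K E F]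

theorem algebraMap_mem_adjoin_simple_of_mem {x : E} (a : E) (ha : a ∈ K⟮x⟯) :
    algebraMap E F a ∈ K⟮algebraMap E F x⟯ := by
  have h : (IsScalarTower.toAlgHom K E F) a ∈ (K⟮x⟯).map (IsScalarTower.toAlgHom K E F) :=
    ⟨a, ha, rfl⟩
  rw [IntermediateField.adjoin_map, Set.image_singleton] at h
  exact h

/-- the ring homomorphism `K(x) → K(i x)` induced by `i : E → F`. -/
def adjoinSimpleMap (x : E) : K⟮x⟯ →+* K⟮algebraMap E F x⟯ where
  toFun a := ⟨algebraMap E F (a : E), algebraMap_mem_adjoin_simple_of_mem (a : E) a.2⟩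
  map_one' := Subtype.ext (by simp)
  map_mul' a b := Subtype.ext (by simp)
  map_zero' := Subtype.ext (by simp)
  map_add' a b := Subtype.ext (by simp)

/-- **tower lemma**: a finite extension of a function field in one variable is a function field
in one variable, with the same witness. -/
theorem isFunctionFieldOver_of_finite {x : E} (h : IsFunctionFieldOver K E x)
    [FiniteDimensional E F] : IsFunctionFieldOver K F (algebraMap E F x) := by
  refine ⟨?_, ?_⟩
  · exact (transcendental_algebraMap_iff (algebraMap E F).injective).mpr h.transcendental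
  · haveI := h.finite
    haveI : Module.Finite K⟮x⟯ F := Module.Finite.trans E F
    letI : Algebra K⟮x⟯ K⟮algebraMap E F x⟯ := (adjoinSimpleMap (K := K) (F := F) x).toAlgebra
    haveI : IsScalarTower K⟮x⟯ K⟮algebraMap E F x⟯ F := IsScalarTower.of_algebraMap_eq fun _ => rfl
    exact Module.Finite.of_restrictScalars_finite K⟮x⟯ K⟮algebraMap E F x⟯ F

end Tower

section Ambient

variable {K Ω : Type*} [Field K] [Field Ω] [Algebra K Ω]

/-- inside an ambient field: `E₀ ≤ E₁ ≤ E₀(B)`, `B` finite and integral over `E₀`, then `E₁` is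
finite over `E₀` (for the algebra structure of the inclusion). -/
theorem finiteDimensional_of_adjoin_finite (E₀ E₁ : IntermediateField K Ω) (h01 : E₀ ≤ E₁)
    (B : Set Ω) [Finite B] (hB : ∀ b ∈ B, IsIntegral E₀ b)
    (hE₁ : E₁ ≤ adjoin K ((E₀ : Set Ω) ∪ B)) :
    letI : Algebra E₀ E₁ := (IntermediateField.inclusion h01).toRingHom.toAlgebra
    FiniteDimensional E₀ E₁ := by
  letI : Algebra E₀ E₁ := (IntermediateField.inclusion h01).toRingHom.toAlgebra
  haveI : FiniteDimensional E₀ (adjoin E₀ B) := IntermediateField.finiteDimensional_adjoin hB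
  have hle : ∀ y : Ω, y ∈ E₁ → y ∈ adjoin E₀ B := by
    intro y hy
    have h1 : adjoin K ((E₀ : Set Ω) ∪ B) ≤ (adjoin E₀ B).restrictScalars K := by
      rw [IntermediateField.adjoin_le_iff]
      rintro z (hz | hz)
      · exact (adjoin E₀ B).algebraMap_mem ⟨z, hz⟩
      · exact IntermediateField.subset_adjoin E₀ B hz
    exact h1 (hE₁ hy)
  let f : E₁ →ₗ[E₀] adjoin E₀ B :=
    { toFun := fun y => ⟨(y : Ω), hle _ y.2⟩
      map_add' := fun y z => rfl
      map_smul' := fun e y => rfl }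
  have hf : Function.Injective f := by
    intro y z hyz
    apply Subtype.ext
    exact congrArg (fun w : adjoin E₀ B => (w : Ω)) hyz
  exact FiniteDimensional.of_injective f hf

/-- the ring homomorphism `K(x₁) → E₀` for `x₁ ∈ E'` whose underlying element lies in `E₀`. -/
theorem coe_mem_of_mem_adjoin_simple (E₀ E' : IntermediateField K Ω) (x₁ : E')
    (hx : (x₁ : Ω) ∈ E₀) (c : E') (hc : c ∈ K⟮x₁⟯) : (c : Ω) ∈ E₀ := by
  have h2 : algebraMap E' Ω c ∈ K⟮algebraMap E' Ω x₁⟯ :=
    algebraMap_mem_adjoin_simple_of_mem (K := K) (F := Ω) (x := x₁) c hc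
  have h3 : K⟮algebraMap E' Ω x₁⟯ ≤ E₀ := by
    rw [IntermediateField.adjoin_simple_le_iff]
    exact hx
  exact h3 h2

/-- inside an ambient field: if `E'` is finite over `K(x)` and `x ∈ E₀`, then every element of
`E'` is algebraic over `E₀`. -/
theorem isAlgebraic_of_mem_of_finite (E₀ E' : IntermediateField K Ω) (x₁ : E')
    (hx : (x₁ : Ω) ∈ E₀) (hfin : FiniteDimensional K⟮x₁⟯ E') {z : Ω} (hz : z ∈ E') :
    IsAlgebraic E₀ z := by
  have h1 : IsAlgebraic K⟮x₁⟯ (⟨z, hz⟩ : E') :=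
    (IsIntegral.of_finite K⟮x₁⟯ (⟨z, hz⟩ : E')).isAlgebraic
  let f : K⟮x₁⟯ →+* E₀ :=
    { toFun := fun c => ⟨((c : E') : Ω), coe_mem_of_mem_adjoin_simple E₀ E' x₁ hx c c.2⟩
      map_one' := rfl
      map_mul' := fun _ _ => rfl
      map_zero' := rfl
      map_add' := fun _ _ => rfl }
  have hcomp : (algebraMap E₀ Ω).comp f = (algebraMap E' Ω).comp (algebraMap K⟮x₁⟯ E') :=
    RingHom.ext fun _ => rfl
  exact h1.ringHom_of_comp_eq f (algebraMap E' Ω) f.injective hcomp

/-- inside an ambient field: a ring endomorphism `ρ` of `Ω` with `ρ(E₀) ⊆ E'`, `E'` algebraic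
over `E₀`, maps elements algebraic over `E₀` to elements algebraic over `E₀`. -/
theorem isAlgebraic_ringHom_of_isAlgebraic (E₀ E' : IntermediateField K Ω) (ρ : Ω →+* Ω)
    (hρ : ∀ e ∈ E₀, ρ e ∈ E') (hE' : ∀ z ∈ E', IsAlgebraic E₀ z) {a : Ω}
    (ha : IsAlgebraic E₀ a) : IsAlgebraic E₀ (ρ a) := by
  haveI : Algebra.IsAlgebraic E₀ (adjoin E₀ (E' : Set Ω)) :=
    IntermediateField.isAlgebraic_adjoin fun z hz => (hE' z hz).isIntegral
  have h1 : IsAlgebraic (adjoin E₀ (E' : Set Ω)) (ρ a) := by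
    let f : E₀ →+* adjoin E₀ (E' : Set Ω) :=
      { toFun := fun e => ⟨ρ (e : Ω), IntermediateField.subset_adjoin E₀ _ (hρ _ e.2)⟩
        map_one' := Subtype.ext (map_one _)
        map_mul' := fun _ _ => Subtype.ext (map_mul _ _ _)
        map_zero' := Subtype.ext (map_zero _)
        map_add' := fun _ _ => Subtype.ext (map_add _ _ _) }
    have hcomp : (algebraMap (adjoin E₀ (E' : Set Ω)) Ω).comp f = ρ.comp (algebraMap E₀ Ω) :=
      RingHom.ext fun _ => rfl
    exact ha.ringHom_of_comp_eq f ρ f.injective hcomp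
  exact h1.restrictScalars E₀

/-- inside an ambient field: `E₀ ≤ E₁ ≤ E₀(B)`, `B` finite and integral over `E₀`, `E₀` a function
field in one variable witnessed by `j`: then `E₁` is a function field in one variable witnessed
by `j`. -/
theorem isFunctionFieldOver_of_adjoin_finite (E₀ E₁ : IntermediateField K Ω) (h01 : E₀ ≤ E₁)
    (j : Ω) (hj0 : j ∈ E₀) (hj1 : j ∈ E₁)
    (h : IsFunctionFieldOver K E₀ (⟨j, hj0⟩ : E₀))
    (B : Set Ω) [Finite B] (hB : ∀ b ∈ B, IsIntegral E₀ b)
    (hE₁ : E₁ ≤ adjoin K ((E₀ : Set Ω) ∪ B)) :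
    IsFunctionFieldOver K E₁ (⟨j, hj1⟩ : E₁) := by
  letI : Algebra E₀ E₁ := (IntermediateField.inclusion h01).toRingHom.toAlgebra
  haveI : IsScalarTower K E₀ E₁ := IsScalarTower.of_algebraMap_eq fun _ => rfl
  haveI : FiniteDimensional E₀ E₁ := finiteDimensional_of_adjoin_finite E₀ E₁ h01 B hB hE₁
  exact isFunctionFieldOver_of_finite h

end Ambient

section BaseChange

variable (L : Type*) [Field L] [Algebra ℚ L]

theorem coeffEmb_algebraMap_ff (r : ℚ) :
    coeffEmb L (algebraMap ℚ (LaurentSeries ℚ) r)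
      = algebraMap L (LaurentSeries L) (algebraMap ℚ L r) := by
  rw [algebraMap_laurentSeries_eq_single, algebraMap_laurentSeries_eq_single]
  exact coeffMap_single _ _ _

/-- a ring homomorphism compatible with the constants maps `ℚ(G)` into `L(ρ G)`. -/
theorem ringHom_mem_adjoin_of_mem_adjoin (ρ : LaurentSeries ℚ →+* LaurentSeries L)
    (hρ : ∀ r : ℚ, ρ (algebraMap ℚ (LaurentSeries ℚ) r)
      = algebraMap L (LaurentSeries L) (algebraMap ℚ L r))
    (G : Set (LaurentSeries ℚ)) {y : LaurentSeries ℚ} (hy : y ∈ adjoin ℚ G) :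
    ρ y ∈ adjoin L (⇑ρ '' G) := by
  induction hy using IntermediateField.adjoin_induction with
  | mem x hx => exact IntermediateField.subset_adjoin L _ ⟨x, hx, rfl⟩
  | algebraMap r =>
      rw [hρ]
      exact IntermediateField.algebraMap_mem _ _
  | add x y _ _ hx hy => rw [map_add]; exact add_mem hx hy
  | inv x _ hx => rw [map_inv₀]; exact inv_mem hx
  | mul x y _ _ hx hy => rw [map_mul]; exact mul_mem hx hy

/-- `L · ℚ(G) ≤ L(G)`. -/
theorem laurentBaseChange_adjoin_le (G : Set (LaurentSeries ℚ)) :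
    laurentBaseChange L (adjoin ℚ G) ≤ adjoin L (⇑(coeffEmb L) '' G) := by
  rw [laurentBaseChange, IntermediateField.adjoin_le_iff]
  rintro _ ⟨y, hy, rfl⟩
  exact ringHom_mem_adjoin_of_mem_adjoin L (coeffEmb L) (coeffEmb_algebraMap_ff L) G hy

end BaseChange

end Fermat.Agent.S48W
end
end MergeWrap_S48_W_H_FFGen

section MergeWrap_S48_W_H_FF -- from S48/W/H/FF.lean

set_option autoImplicit false

noncomputable section

namespace Fermat.Agent.S48W

open ModularCurve AlgebraicCurve IntermediateField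
open Fermat.Agent.S24Diff

local notation "Kb" => AlgebraicClosure ℚ
local notation "Ωb" => LaurentSeries (AlgebraicClosure ℚ)

/-! ### finiteness of the sets of generators -/

/-- the set of Fricke functions. -/
def frickeSet (M : ℕ) [NeZero M] : Set (LaurentSeries ℚ) :=
  {x | ∃ a : ZMod M, a ≠ 0 ∧ x = fricke M a}

theorem genOne_eq (M : ℕ) [NeZero M] : genOne M = divisorExpansions M ∪ frickeSet M := rfl

theorem finite_frickeSet (M : ℕ) [NeZero M] : (frickeSet M).Finite := by
  refine (Set.finite_range (fricke M)).subset ?_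
  rintro x ⟨a, -, rfl⟩
  exact ⟨a, rfl⟩

theorem finite_divisorExpansions (M : ℕ) [NeZero M] : (divisorExpansions M).Finite := by
  classical
  refine ((Finset.range (M + 1)).finite_toSet.image
    (fun d : ℕ => if h : d = 0 then (0 : LaurentSeries ℚ)
      else @qExpand ℚ _ d ⟨h⟩ jq)).subset ?_
  rintro x ⟨d, hne, hdvd, rfl⟩
  refine ⟨d, ?_, ?_⟩
  · rw [Finset.coe_range, Set.mem_Iio]
    exact Nat.lt_succ_of_le (Nat.le_of_dvd (Nat.pos_of_ne_zero (NeZero.ne M)) hdvd)
  · simp only [dif_neg (NeZero.ne d)]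

theorem finite_genOne (M : ℕ) [NeZero M] : (genOne M).Finite :=
  (finite_divisorExpansions M).union (finite_frickeSet M)

/-! ### the base `E₀ = ℚ̄ F₀(M)` -/

theorem coeffEmb_jq_mem_bar (M : ℕ) [NeZero M] :
    coeffEmb Kb jq ∈ modularFunctionFieldBar M := by
  have h := jqd_mem_full M (one_dvd M)
  rw [qExpand_one_apply] at h
  exact coeffEmb_mem_laurentBaseChange Kb h

theorem coeffEmb_divisorExpansion_mem_bar (M : ℕ) [NeZero M] {x : LaurentSeries ℚ}
    (hx : x ∈ divisorExpansions M) : coeffEmb Kb x ∈ modularFunctionFieldBar M :=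
  coeffEmb_mem_laurentBaseChange Kb (IntermediateField.subset_adjoin ℚ _ hx)

/-- every element of `ℚ̄ F₀(N)` is algebraic over `ℚ̄ F₀(M)` (both are algebraic over `ℚ̄(j)`). -/
theorem isAlgebraic_bar_of_mem_bar (M N : ℕ) [NeZero M] [NeZero N] {z : Ωb}
    (hz : z ∈ modularFunctionFieldBar N) : IsAlgebraic (modularFunctionFieldBar M) z :=
  isAlgebraic_of_mem_of_finite (modularFunctionFieldBar M) (modularFunctionFieldBar N)
    (Fermat.Agent.S24.jBar N) (coeffEmb_jq_mem_bar M)
    (Fermat.Agent.S24.isFunctionFieldOver_jBar N).finite hz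

/-! ### `ℚ̄ F₁(M)` -/

theorem foneBar_le (M : ℕ) [NeZero M] :
    FOneBar M ≤ adjoin Kb (((modularFunctionFieldBar M : IntermediateField Kb Ωb) : Set Ωb)
      ∪ ⇑(coeffEmb Kb) '' frickeSet M) := by
  refine (laurentBaseChange_adjoin_le Kb (genOne M)).trans ?_
  rw [IntermediateField.adjoin_le_iff]
  rintro _ ⟨x, hx, rfl⟩
  rcases hx with hx | hx
  · exact IntermediateField.subset_adjoin Kb _ (Or.inl (coeffEmb_divisorExpansion_mem_bar M hx))
  · exact IntermediateField.subset_adjoin Kb _ (Or.inr ⟨x, hx, rfl⟩)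

theorem bar_le_foneBar (M : ℕ) [NeZero M] : modularFunctionFieldBar M ≤ FOneBar M :=
  laurentBaseChange_mono_w Kb (full_le_FOne M)

/-- **H-FF**, `ℚ̄`-form. -/
theorem functionFieldOne_of_bar (M : ℕ) [NeZero M] (h : FrickeAlgebraicBarOne M) :
    FunctionFieldOne M := by
  haveI : Finite (⇑(coeffEmb Kb) '' frickeSet M) :=
    ((finite_frickeSet M).image _).to_subtype
  have hB : ∀ b ∈ ⇑(coeffEmb Kb) '' frickeSet M, IsIntegral (modularFunctionFieldBar M) b := by
    rintro _ ⟨x, ⟨a, ha, rfl⟩, rfl⟩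
    exact (h a ha).isIntegral
  exact isFunctionFieldOver_of_adjoin_finite (modularFunctionFieldBar M) (FOneBar M)
    (bar_le_foneBar M) (coeffEmb Kb jq) (coeffEmb_jq_mem_bar M)
    (coeffEmb_mem_laurentBaseChange Kb (jq_mem_FOne M))
    (Fermat.Agent.S24.isFunctionFieldOver_jBar M) _ hB (foneBar_le M)

/-- **H-FF**. -/
theorem functionFieldOne_of (M : ℕ) [NeZero M] (h : FrickeAlgebraicOne M) :
    FunctionFieldOne M :=
  functionFieldOne_of_bar M (frickeAlgebraicBarOne_of M h)

/-! ### `ℚ̄ F(Γ₁(M) ∩ Γ₀(p))` -/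

/-- the ring homomorphism `x ↦ x(q^p)` with coefficients in `ℚ̄`. -/
def coeffEmbP (p : ℕ) [NeZero p] : LaurentSeries ℚ →+* Ωb :=
  (coeffEmb Kb).comp (qExpand ℚ p)

theorem coeffEmbP_apply (p : ℕ) [NeZero p] (x : LaurentSeries ℚ) :
    coeffEmbP p x = coeffEmb Kb (qExpand ℚ p x) := rfl

theorem coeffEmbP_eq (p : ℕ) [NeZero p] (x : LaurentSeries ℚ) :
    coeffEmbP p x = qExpand Kb p (coeffEmb Kb x) := coeffEmb_qExpand_w Kb p x

theorem coeffEmbP_algebraMap (p : ℕ) [NeZero p] (r : ℚ) :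
    coeffEmbP p (algebraMap ℚ (LaurentSeries ℚ) r)
      = algebraMap Kb Ωb (algebraMap ℚ Kb r) := by
  rw [coeffEmbP_apply, algebraMap_laurentSeries_eq_single, qExpand_single, mul_zero,
    ← algebraMap_laurentSeries_eq_single]
  exact coeffEmb_algebraMap_ff Kb r

theorem qExpand_mem_bar (M p : ℕ) [NeZero M] [NeZero p] {z : Ωb}
    (hz : z ∈ modularFunctionFieldBar M) :
    qExpand Kb p z ∈ laurentBaseChange Kb (modularFunctionFieldFull (M * p)) := by
  refine qExpand_mem_laurentBaseChange_w p (fun y hy => ?_) hz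
  exact full_degeneracy_map_le M p ⟨y, hy, rfl⟩

/-- the second set of generators: the `x(q^p)`, `x` a generator of `F₁(M)`. -/
theorem isIntegral_coeffEmbP_gen (M p : ℕ) [NeZero M] [NeZero p]
    (h : FrickeAlgebraicBarOne M) {x : LaurentSeries ℚ} (hx : x ∈ genOne M) :
    IsIntegral (modularFunctionFieldBar M) (coeffEmbP p x) := by
  haveI : NeZero (M * p) := ⟨Nat.mul_ne_zero (NeZero.ne M) (NeZero.ne p)⟩
  rcases hx with hx | ⟨a, ha, rfl⟩
  · -- `j(q^{p d})`
    apply IsAlgebraic.isIntegral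
    apply isAlgebraic_bar_of_mem_bar M (M * p)
    rw [coeffEmbP_eq]
    exact qExpand_mem_bar M p (coeffEmb_divisorExpansion_mem_bar M hx)
  · -- `fricke(q^p)`
    apply IsAlgebraic.isIntegral
    rw [coeffEmbP_eq]
    exact isAlgebraic_ringHom_of_isAlgebraic (modularFunctionFieldBar M)
      (laurentBaseChange Kb (modularFunctionFieldFull (M * p))) (qExpand Kb p)
      (fun e he => qExpand_mem_bar M p he)
      (fun z hz => isAlgebraic_bar_of_mem_bar M (M * p) hz) (h a ha)

theorem fonePBar_le (M p : ℕ) [NeZero M] [NeZero p] :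
    laurentBaseChange Kb (FOneP M p)
      ≤ adjoin Kb (((modularFunctionFieldBar M : IntermediateField Kb Ωb) : Set Ωb)
        ∪ (⇑(coeffEmb Kb) '' frickeSet M ∪ ⇑(coeffEmbP p) '' genOne M)) := by
  refine (laurentBaseChange_adjoin_le Kb _).trans ?_
  rw [IntermediateField.adjoin_le_iff]
  rintro _ ⟨x, hx, rfl⟩
  rcases hx with hx | ⟨y, hy, rfl⟩
  · -- `x ∈ F₁(M)`
    have h1 : coeffEmb Kb x ∈ FOneBar M := coeffEmb_mem_laurentBaseChange Kb hx
    have h2 := foneBar_le M h1
    refine IntermediateField.adjoin.mono Kb _ _ ?_ h2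
    rintro z (hz | hz)
    · exact Or.inl hz
    · exact Or.inr (Or.inl hz)
  · -- `x = y(q^p)`, `y ∈ F₁(M)`
    have h1 := ringHom_mem_adjoin_of_mem_adjoin Kb (coeffEmbP p) (coeffEmbP_algebraMap p)
      (genOne M) hy
    refine IntermediateField.adjoin.mono Kb _ _ ?_ h1
    intro z hz
    exact Or.inr (Or.inr hz)

theorem bar_le_fonePBar (M p : ℕ) [NeZero M] [NeZero p] :
    modularFunctionFieldBar M ≤ laurentBaseChange Kb (FOneP M p) :=
  laurentBaseChange_mono_w Kb ((full_le_FOne M).trans (FOne_le_FOneP M p))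

/-- **H-FF** for the level `Γ₁(M) ∩ Γ₀(p)`, `ℚ̄`-form. -/
theorem functionFieldOneP_of_bar (M p : ℕ) [NeZero M] [NeZero p]
    (h : FrickeAlgebraicBarOne M) : FunctionFieldOneP M p := by
  haveI : Finite (⇑(coeffEmb Kb) '' frickeSet M ∪ ⇑(coeffEmbP p) '' genOne M : Set Ωb) :=
    (((finite_frickeSet M).image _).union ((finite_genOne M).image _)).to_subtype
  have hB : ∀ b ∈ (⇑(coeffEmb Kb) '' frickeSet M ∪ ⇑(coeffEmbP p) '' genOne M : Set Ωb),
      IsIntegral (modularFunctionFieldBar M) b := by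
    rintro _ (⟨x, ⟨a, ha, rfl⟩, rfl⟩ | ⟨x, hx, rfl⟩)
    · exact (h a ha).isIntegral
    · exact isIntegral_coeffEmbP_gen M p h hx
  exact isFunctionFieldOver_of_adjoin_finite (modularFunctionFieldBar M)
    (laurentBaseChange Kb (FOneP M p)) (bar_le_fonePBar M p) (coeffEmb Kb jq)
    (coeffEmb_jq_mem_bar M)
    (coeffEmb_mem_laurentBaseChange Kb (FOne_le_FOneP M p (jq_mem_FOne M)))
    (Fermat.Agent.S24.isFunctionFieldOver_jBar M) _ hB (fonePBar_le M p)

/-- **H-FF** for the level `Γ₁(M) ∩ Γ₀(p)`. -/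
theorem functionFieldOneP_of (M p : ℕ) [NeZero M] [NeZero p] (h : FrickeAlgebraicOne M) :
    FunctionFieldOneP M p :=
  functionFieldOneP_of_bar M p (frickeAlgebraicBarOne_of M h)

end Fermat.Agent.S48W
end
end MergeWrap_S48_W_H_FF
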